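import Mathlib

set_option autoImplicit false

/-!
Counting bound for `n`-torsion of a Weierstrass curve over a field from a polynomial vanishing on
the abscissae.
-/

namespace Fermat.Agent.S51.Count

open WeierstrassCurve WeierstrassCurve.Affine WeierstrassCurve.Affine.Point Polynomial

variable {F : Type*} [Field F]

noncomputable def quad (b c : F) : F[X] := C 1 * X ^ 2 + C b * X + C c

lemma quad_coeff_two (b c : F) : (quad b c).coeff 2 = 1 := by
  simp [quad]

lemma quad_ne_zero (b c : F) : quad b c ≠ 0 := by
  intro h
  have := quad_coeff_two b c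
  rw [h] at this
  simp at this

noncomputable def yPoly (W : WeierstrassCurve F) (x : F) : F[X] :=
  quad (W.a₁ * x + W.a₃) (-(x ^ 3 + W.a₂ * x ^ 2 + W.a₄ * x + W.a₆))

lemma yPoly_ne_zero (W : WeierstrassCurve F) (x : F) : yPoly W x ≠ 0 := quad_ne_zero _ _

lemma natDegree_yPoly_le (W : WeierstrassCurve F) (x : F) : (yPoly W x).natDegree ≤ 2 :=
  natDegree_quadratic_le

lemma yPoly_eval {W : WeierstrassCurve F} {x y : F} (h : W.toAffine.Equation x y) :
    (yPoly W x).eval y = 0 := by
  rw [equation_iff] at h
  simp [yPoly, quad]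
  linear_combination h

def toPair {W : WeierstrassCurve F} : W.toAffine.Point → Option (F × F)
  | .zero => none
  | .some x y _ => Option.some (x, y)

lemma toPair_injective {W : WeierstrassCurve F} :
    Function.Injective (toPair (W := W)) := by
  rintro (_ | ⟨x₁, y₁, h₁⟩) (_ | ⟨x₂, y₂, h₂⟩) h <;>
    simp only [toPair, Option.some.injEq, Prod.mk.injEq, reduceCtorEq] at h
  · rfl
  · obtain ⟨rfl, rfl⟩ := h; rfl

variable [DecidableEq F]

theorem card_le (W : WeierstrassCurve F) (n : ℕ) (f : F[X]) (hf : f ≠ 0)
    (H : ∀ x y : F, ∀ h : W.toAffine.Nonsingular x y, (n : ℤ) • Point.some x y h = 0 →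
      f.eval x = 0) :
    Finite (Submodule.torsionBy ℤ W.toAffine.Point (n : ℤ)) ∧
      Nat.card (Submodule.torsionBy ℤ W.toAffine.Point (n : ℤ)) ≤ 2 * f.natDegree + 1 := by
  classical
  set S : Finset (F × F) := f.roots.toFinset.biUnion
    (fun x => ((yPoly W x).roots.toFinset).image (fun y => (x, y))) with hS
  have hScard : S.card ≤ 2 * f.natDegree := by
    calc S.card ≤ ∑ x ∈ f.roots.toFinset,
          (((yPoly W x).roots.toFinset).image (fun y => (x, y))).card := Finset.card_biUnion_le
      _ ≤ ∑ x ∈ f.roots.toFinset, 2 := by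
          apply Finset.sum_le_sum
          intro x _
          calc _ ≤ ((yPoly W x).roots.toFinset).card := Finset.card_image_le
            _ ≤ Multiset.card (yPoly W x).roots := Multiset.toFinset_card_le _
            _ ≤ (yPoly W x).natDegree := card_roots' _
            _ ≤ 2 := natDegree_yPoly_le W x
      _ = 2 * f.roots.toFinset.card := by rw [Finset.sum_const, smul_eq_mul, mul_comm]
      _ ≤ 2 * f.natDegree := by
          apply Nat.mul_le_mul_left
          exact (Multiset.toFinset_card_le _).trans (card_roots' _)
  have hmem : ∀ P : Submodule.torsionBy ℤ W.toAffine.Point (n : ℤ),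
      toPair P.1 ∈ Finset.insertNone S := by
    rintro ⟨P, hP⟩
    rw [Submodule.mem_torsionBy_iff] at hP
    cases P with
    | zero => simp [toPair]
    | some x y h =>
      simp only [toPair, Finset.some_mem_insertNone]
      rw [hS, Finset.mem_biUnion]
      refine ⟨x, ?_, ?_⟩
      · rw [Multiset.mem_toFinset, mem_roots hf]
        exact H x y h hP
      · rw [Finset.mem_image]
        refine ⟨y, ?_, rfl⟩
        rw [Multiset.mem_toFinset, mem_roots (yPoly_ne_zero W x)]
        exact yPoly_eval h.1
  let g : Submodule.torsionBy ℤ W.toAffine.Point (n : ℤ) → (Finset.insertNone S) :=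
    fun P => ⟨toPair P.1, hmem P⟩
  have hg : Function.Injective g := by
    intro P Q h
    have : toPair P.1 = toPair Q.1 := congrArg Subtype.val h
    exact Subtype.ext (toPair_injective this)
  refine ⟨Finite.of_injective g hg, ?_⟩
  calc _ ≤ Nat.card (Finset.insertNone S) := Nat.card_le_card_of_injective g hg
    _ = S.card + 1 := by rw [Nat.card_eq_fintype_card, Fintype.card_coe, Finset.card_insertNone]
    _ ≤ _ := by omega

end Fermat.Agent.S51.Count
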