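import Mathlib

set_option autoImplicit false

/-!
Elementary facts on 3- and 5-torsion points of a Weierstrass curve over a field, via the
duplication formula.
-/

namespace Fermat.Agent.S51.Torsion

open WeierstrassCurve WeierstrassCurve.Affine WeierstrassCurve.Affine.Point Polynomial

section General

variable {F : Type*} [Field F] (W : WeierstrassCurve F)

/-- `ψ₂²` as a function of `x`. -/
def P2 (x : F) : F := 4 * x ^ 3 + W.b₂ * x ^ 2 + 2 * W.b₄ * x + W.b₆

/-- numerator of `x(2P)`. -/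
def Ph (x : F) : F := x ^ 4 - W.b₄ * x ^ 2 - 2 * W.b₆ * x - W.b₈

/-- `ψ₃` as a function of `x`. -/
def P3 (x : F) : F := 3 * x ^ 4 + W.b₂ * x ^ 3 + 3 * W.b₄ * x ^ 2 + 3 * W.b₆ * x + W.b₈

/-- `ψ₅` as a function of `x`. -/
def P5 (x : F) : F :=
  P2 W x ^ 2 * (P3 W x * (6 * x ^ 2 + W.b₂ * x + W.b₄) - P2 W x ^ 2) - P3 W x ^ 3

lemma P3_eq (x : F) : P3 W x = x * P2 W x - Ph W x := by
  simp only [P3, P2, Ph]; ring

lemma eval_Ψ₃ (x : F) : W.Ψ₃.eval x = P3 W x := by
  simp only [Ψ₃, P3]; simp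

lemma eval_Ψ₂Sq (x : F) : W.Ψ₂Sq.eval x = P2 W x := by
  simp only [Ψ₂Sq, P2]; simp

lemma eval_preΨ₄ (x : F) :
    W.preΨ₄.eval x = P3 W x * (6 * x ^ 2 + W.b₂ * x + W.b₄) - P2 W x ^ 2 := by
  simp only [preΨ₄, P3, P2]
  have h := W.b_relation
  simp
  linear_combination x ^ 2 * h

lemma eval_preΨ'_five (x : F) : (W.preΨ' 5).eval x = P5 W x := by
  have h := W.preΨ'_odd 0
  simp at h
  rw [h]
  simp only [eval_sub, eval_mul, eval_pow, eval_Ψ₃, eval_Ψ₂Sq, eval_preΨ₄, P5]
  ring

variable {W}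

lemma sq_eq_P2 {x y : F} (h : W.toAffine.Equation x y) :
    (2 * y + W.a₁ * x + W.a₃) ^ 2 = P2 W x := by
  rw [equation_iff] at h
  simp only [P2, b₂, b₄, b₆]
  linear_combination 4 * h

lemma P3_ne_zero_of_P2 {x y : F} (h : W.toAffine.Nonsingular x y) (h2 : P2 W x = 0) :
    P3 W x ≠ 0 := by
  intro h3
  rw [nonsingular_iff'] at h
  obtain ⟨he, hs⟩ := h
  have hD : 2 * y + W.a₁ * x + W.a₃ = 0 := by
    have := sq_eq_P2 he
    rw [h2] at this
    exact pow_eq_zero_iff two_ne_zero |>.mp this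
  have hN : W.a₁ * y - (3 * x ^ 2 + 2 * W.a₂ * x + W.a₄) ≠ 0 := by
    rcases hs with hs | hs
    · exact hs
    · exact absurd hD hs
  apply hN
  have : (W.a₁ * y - (3 * x ^ 2 + 2 * W.a₂ * x + W.a₄)) ^ 2 = 0 := by
    rw [equation_iff] at he
    simp only [P3, b₂, b₄, b₆, b₈] at h3
    have hy : W.a₃ = -(2 * y + W.a₁ * x) := by linear_combination hD
    rw [hy] at he h3
    linear_combination (-1 : F) * h3 + (-12 * x - 4 * W.a₂ - W.a₁ ^ 2) * he
  exact pow_eq_zero_iff two_ne_zero |>.mp this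

variable [DecidableEq F]

lemma double_of_P2_ne {x y : F} (h : W.toAffine.Nonsingular x y) (h2 : P2 W x ≠ 0) :
    ∃ x' y' : F, ∃ h' : W.toAffine.Nonsingular x' y',
      (Point.some x y h + Point.some x y h = Point.some x' y' h') ∧ x' * P2 W x = Ph W x := by
  have hD : 2 * y + W.a₁ * x + W.a₃ ≠ 0 := by
    intro h0
    apply h2
    rw [← sq_eq_P2 h.1, h0]; ring
  have hy : y ≠ W.toAffine.negY x y := by
    intro h0
    apply hD
    rw [negY] at h0
    linear_combination h0
  refine ⟨_, _, _, add_self_of_Y_ne hy, ?_⟩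
  rw [slope_of_Y_ne rfl hy, addX, ← sq_eq_P2 h.1]
  have hD' : y - W.toAffine.negY x y = 2 * y + W.a₁ * x + W.a₃ := by rw [negY]; ring
  rw [hD']
  have he := h.1
  rw [equation_iff] at he
  have key : (3 * x ^ 2 + 2 * W.a₂ * x + W.a₄ - W.a₁ * y) ^ 2
      + W.a₁ * (3 * x ^ 2 + 2 * W.a₂ * x + W.a₄ - W.a₁ * y) * (2 * y + W.a₁ * x + W.a₃)
      - (W.a₂ + 2 * x) * (2 * y + W.a₁ * x + W.a₃) ^ 2 = Ph W x := by
    simp only [Ph, b₄, b₆, b₈]
    linear_combination (-(8 * x + 4 * W.a₂ + W.a₁ ^ 2)) * he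
  rw [← key]
  generalize 2 * y + W.a₁ * x + W.a₃ = D at hD
  generalize 3 * x ^ 2 + 2 * W.a₂ * x + W.a₄ - W.a₁ * y = N
  field_simp
  ring

lemma double_of_P2_eq {x y : F} (h : W.toAffine.Nonsingular x y) (h2 : P2 W x = 0) :
    Point.some x y h + Point.some x y h = 0 := by
  have hD : 2 * y + W.a₁ * x + W.a₃ = 0 := by
    have := sq_eq_P2 h.1
    rw [h2] at this
    exact pow_eq_zero_iff two_ne_zero |>.mp this
  apply add_self_of_Y_eq
  rw [negY]
  linear_combination hD

/-- A 3-torsion point has `ψ₃ = 0`. -/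
lemma P3_eq_zero_of_three {x y : F} (h : W.toAffine.Nonsingular x y)
    (h3 : (3 : ℤ) • Point.some x y h = 0) : P3 W x = 0 := by
  have h2 : P2 W x ≠ 0 := by
    intro h2
    have := double_of_P2_eq h h2
    have h4 : Point.some x y h = 0 := by
      have e : Point.some x y h = (3 : ℤ) • Point.some x y h
        - (Point.some x y h + Point.some x y h) := by abel
      rw [e, h3, this]; simp
    exact some_ne_zero h h4
  obtain ⟨x', y', h', e1, e2⟩ := double_of_P2_ne h h2
  have e3 : Point.some x' y' h' = - Point.some x y h := by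
    rw [← e1]
    have e : Point.some x y h + Point.some x y h
      = (3 : ℤ) • Point.some x y h - Point.some x y h := by abel
    rw [e, h3]; simp
  have hx : x' = x := X_eq_iff.mpr (Or.inr e3)
  rw [P3_eq, ← e2, hx]; ring

lemma three_of_P3_eq_zero {x y : F} (h : W.toAffine.Nonsingular x y) (h3 : P3 W x = 0) :
    (3 : ℤ) • Point.some x y h = 0 := by
  have h2 : P2 W x ≠ 0 := fun h2 => P3_ne_zero_of_P2 h h2 h3
  obtain ⟨x', y', h', e1, e2⟩ := double_of_P2_ne h h2
  have hx : x' = x := by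
    have : (x' - x) * P2 W x = 0 := by
      rw [P3_eq] at h3; linear_combination e2 - h3
    rcases mul_eq_zero.mp this with h4 | h4
    · linear_combination h4
    · exact absurd h4 h2
  have e : (3 : ℤ) • Point.some x y h = (Point.some x y h + Point.some x y h)
    + Point.some x y h := by abel
  rcases X_eq_iff (h₁ := h') (h₂ := h) |>.mp hx with h4 | h4
  · exfalso
    rw [h4] at e1
    have : Point.some x y h = 0 := by
      have e : Point.some x y h = (Point.some x y h + Point.some x y h)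
        - Point.some x y h := by abel
      rw [e, e1]; simp
    exact some_ne_zero h this
  · rw [e, e1, h4]; simp

lemma P3_ne_zero_of_five {x y : F} (h : W.toAffine.Nonsingular x y)
    (h5 : (5 : ℤ) • Point.some x y h = 0) : P3 W x ≠ 0 := by
  intro h3
  have h3' := three_of_P3_eq_zero h h3
  set P := Point.some x y h with hP
  have hP0 : P ≠ 0 := some_ne_zero h
  apply hP0
  have e : P = (2 : ℤ) • ((3 : ℤ) • P) - (5 : ℤ) • P := by abel
  rw [e, h3', h5]; simp

/-- The symmetric relations satisfied by `x(P)`, `x(2P)` for `5P = 0`. -/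
lemma five_relations {x y : F} (h : W.toAffine.Nonsingular x y)
    (h5 : (5 : ℤ) • Point.some x y h = 0) :
    ∃ x' y' : F, ∃ h' : W.toAffine.Nonsingular x' y',
      (2 : ℤ) • Point.some x y h = Point.some x' y' h' ∧ x ≠ x' ∧ P2 W x ≠ 0 ∧
      x' * P2 W x = Ph W x ∧ x * P2 W x' = Ph W x' := by
  set P := Point.some x y h with hP
  have hP0 : P ≠ 0 := some_ne_zero h
  have h2 : P2 W x ≠ 0 := by
    intro h2
    apply hP0
    have h4 := double_of_P2_eq h h2
    rw [← hP] at h4
    have e : P = (5 : ℤ) • P - (2 : ℤ) • (P + P) := by abel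
    rw [e, h5, h4]; simp
  obtain ⟨x', y', h', e1, e2⟩ := double_of_P2_ne h h2
  rw [← hP] at e1
  set Q := Point.some x' y' h' with hQ
  have hQ0 : Q ≠ 0 := some_ne_zero h'
  have hQ5 : (5 : ℤ) • Q = 0 := by
    rw [← e1]
    have e : (5 : ℤ) • (P + P) = (5 : ℤ) • P + (5 : ℤ) • P := by abel
    rw [e, h5]; simp
  have h2' : P2 W x' ≠ 0 := by
    intro h2
    apply hQ0
    have h4 := double_of_P2_eq h' h2
    rw [← hQ] at h4
    have e : Q = (5 : ℤ) • Q - (2 : ℤ) • (Q + Q) := by abel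
    rw [e, hQ5, h4]; simp
  obtain ⟨x'', y'', h'', e3, e4⟩ := double_of_P2_ne h' h2'
  rw [← hQ] at e3
  have e5 : Point.some x'' y'' h'' = - P := by
    rw [← e3, ← e1]
    have e : (P + P) + (P + P) = (5 : ℤ) • P - P := by abel
    rw [e, h5]; simp
  have hx : x'' = x := X_eq_iff.mpr (Or.inr e5)
  refine ⟨x', y', h', ?_, ?_, h2, e2, ?_⟩
  · rw [← hQ, ← e1]; abel
  · intro hxx
    rcases X_eq_iff (h₁ := h) (h₂ := h') |>.mp hxx with h4 | h4
    · rw [← hP, ← hQ] at h4
      apply hP0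
      have e : P = (P + P) - P := by abel
      rw [e, e1, ← h4]; simp
    · rw [← hP, ← hQ] at h4
      apply hP0
      have h6 : (3 : ℤ) • P = 0 := by
        have e : (3 : ℤ) • P = (P + P) + P := by abel
        rw [e, e1, h4]; simp
      have e : P = (2 : ℤ) • ((3 : ℤ) • P) - (5 : ℤ) • P := by abel
      rw [e, h6, h5]; simp
  · rw [← e4, hx]

omit [DecidableEq F] in
/-- relation `R1`. -/
lemma R1_of {x x' : F} (hne : x ≠ x') (e1 : x' * P2 W x = Ph W x) (e2 : x * P2 W x' = Ph W x') :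
    (x + x') ^ 3 - 6 * (x * x') * (x + x') - W.b₄ * (x + x') - W.b₂ * (x * x') - W.b₆ = 0 := by
  have h : (x - x') * ((x + x') ^ 3 - 6 * (x * x') * (x + x') - W.b₄ * (x + x')
      - W.b₂ * (x * x') - W.b₆) = 0 := by
    simp only [P2, Ph] at e1 e2
    linear_combination e2 - e1
  rcases mul_eq_zero.mp h with h | h
  · exact absurd (sub_eq_zero.mp h) hne
  · exact h

omit [DecidableEq F] in
/-- relation `R3`. -/
lemma R3_of (h2 : (2 : F) ≠ 0) {x x' : F} (hne : x ≠ x') (e1 : x' * P2 W x = Ph W x)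
    (e2 : x * P2 W x' = Ph W x') :
    (x * x') * (x + x') ^ 2 - 5 * (x * x') ^ 2 + W.b₄ * (x * x') + W.b₆ * (x + x') + W.b₈ = 0 := by
  have R1 := R1_of hne e1 e2
  simp only [P2, Ph] at e1 e2
  have : 2 * ((x * x') * (x + x') ^ 2 - 5 * (x * x') ^ 2 + W.b₄ * (x * x')
      + W.b₆ * (x + x') + W.b₈) = 0 := by
    linear_combination (x + x') * R1 + e1 + e2
  rcases mul_eq_zero.mp this with h | h
  · exact absurd h h2
  · exact h

omit [DecidableEq F] in
lemma P5_of_R1 {x x' : F} (e1 : x' * P2 W x = Ph W x)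
    (e2 : (x + x') ^ 3 - 6 * (x * x') * (x + x') - W.b₄ * (x + x') - W.b₂ * (x * x')
      - W.b₆ = 0) : P5 W x = 0 := by
  have h : P3 W x = (x - x') * P2 W x := by rw [P3_eq, ← e1]; ring
  have h' : P5 W x = P2 W x ^ 3 * ((x + x') ^ 3 - 6 * (x * x') * (x + x') - W.b₄ * (x + x')
      - W.b₂ * (x * x') - W.b₆) := by
    rw [P5, h]
    generalize hD : P2 W x = D
    have hD' := hD
    simp only [P2] at hD'
    linear_combination D ^ 3 * hD'
  rw [h', e2, mul_zero]

lemma P5_eq_zero_of_five {x y : F} (h : W.toAffine.Nonsingular x y)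
    (h5 : (5 : ℤ) • Point.some x y h = 0) : P5 W x = 0 := by
  obtain ⟨x', y', h', -, hne, -, e1, e2⟩ := five_relations h h5
  exact P5_of_R1 e1 (R1_of hne e1 e2)

lemma five_of_P5_eq_zero {x y : F} (h : W.toAffine.Nonsingular x y) (h5 : P5 W x = 0) :
    (5 : ℤ) • Point.some x y h = 0 := by
  have h2 : P2 W x ≠ 0 := by
    intro h2
    have h3 := P3_ne_zero_of_P2 h h2
    apply h3
    rw [P5, h2] at h5
    have : P3 W x ^ 3 = 0 := by linear_combination -h5
    exact pow_eq_zero_iff three_ne_zero |>.mp this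
  obtain ⟨x', y', h', e1, e2⟩ := double_of_P2_ne h h2
  have hR1 : (x + x') ^ 3 - 6 * (x * x') * (x + x') - W.b₄ * (x + x') - W.b₂ * (x * x')
      - W.b₆ = 0 := by
    have h3 : P3 W x = (x - x') * P2 W x := by rw [P3_eq, ← e2]; ring
    have h' : P5 W x = P2 W x ^ 3 * ((x + x') ^ 3 - 6 * (x * x') * (x + x') - W.b₄ * (x + x')
        - W.b₂ * (x * x') - W.b₆) := by
      rw [P5, h3]
      generalize hD : P2 W x = D
      have hD' := hD
      simp only [P2] at hD'
      linear_combination D ^ 3 * hD'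
    rw [h'] at h5
    rcases mul_eq_zero.mp h5 with h6 | h6
    · exact absurd h6 (pow_ne_zero 3 h2)
    · exact h6
  have e3 : x * P2 W x' = Ph W x' := by
    have e2' := e2
    simp only [P2, Ph] at e2' ⊢
    linear_combination (x - x') * hR1 + e2'
  have h2' : P2 W x' ≠ 0 := by
    intro h2'
    apply P3_ne_zero_of_P2 h' h2'
    rw [P3_eq, ← e3, h2']; ring
  obtain ⟨x'', y'', h'', e4, e5⟩ := double_of_P2_ne h' h2'
  have hx : x'' = x := mul_right_cancel₀ h2' (e5.trans e3.symm)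
  set P := Point.some x y h with hP
  have hP0 : P ≠ 0 := some_ne_zero h
  rcases X_eq_iff (h₁ := h'') (h₂ := h) |>.mp hx with h6 | h6
  · exfalso
    -- 3 P = 0
    have h3 : (3 : ℤ) • P = 0 := by
      have e : (3 : ℤ) • P = ((P + P) + (P + P)) - P := by abel
      rw [e, e1, e4, h6]; simp [hP]
    have h3' : P3 W x = 0 := P3_eq_zero_of_three h h3
    have hxx : x' = x := by
      have : (x' - x) * P2 W x = 0 := by
        rw [P3_eq] at h3'; linear_combination e2 - h3'
      rcases mul_eq_zero.mp this with h4 | h4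
      · linear_combination h4
      · exact absurd h4 h2
    apply h2
    rw [hxx] at hR1
    simp only [P2]
    linear_combination -hR1
  · have e : (5 : ℤ) • P = ((P + P) + (P + P)) + P := by abel
    rw [e, e1, e4, h6]; simp [hP]

end General

end Fermat.Agent.S51.Torsion
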