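import Mathlib
import Fermat.Prelude.Def_FLTPrelim_GaloisRep
import Fermat.Agent.S51_lib.Torsion
import Fermat.Agent.S51_lib.Count

set_option autoImplicit false

/-!
Reducible mod 3 and mod 5 representations give rational division data.
-/

namespace Fermat.Agent.S51.Galois

open WeierstrassCurve WeierstrassCurve.Affine WeierstrassCurve.Affine.Point Polynomial
open Fermat.Agent.S51.Torsion Fermat.Agent.S51.Count

lemma exists_generator {p : ℕ} [hp : Fact p.Prime] {V : Type*} [AddCommGroup V] [Module (ZMod p) V]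
    [Finite V] (hcard : Nat.card V < p ^ 3) (N : Submodule (ZMod p) V) (h1 : N ≠ ⊥) (h2 : N ≠ ⊤) :
    ∃ v ∈ N, v ≠ 0 ∧ ∀ w ∈ N, ∃ c : ZMod p, c • v = w := by
  have hfd : Module.Finite (ZMod p) V := Module.Finite.of_finite
  have h3 : Module.finrank (ZMod p) V < 3 := by
    have := Module.natCard_eq_pow_finrank (K := ZMod p) (V := V)
    rw [this, Nat.card_zmod] at hcard
    exact (Nat.pow_lt_pow_iff_right hp.out.one_lt).mp hcard
  have h4 : Module.finrank (ZMod p) N < Module.finrank (ZMod p) V :=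
    Submodule.finrank_lt h2
  have h5 : 0 < Module.finrank (ZMod p) N := by
    rw [Nat.pos_iff_ne_zero]
    intro h
    exact h1 (Submodule.finrank_eq_zero.mp h)
  have h6 : Module.finrank (ZMod p) N = 1 := by omega
  obtain ⟨v, hv, hv'⟩ := finrank_eq_one_iff'.mp h6
  refine ⟨v.1, v.2, fun h => hv (Subtype.ext h), ?_⟩
  intro w hw
  obtain ⟨c, hc⟩ := hv' ⟨w, hw⟩
  exact ⟨c, congrArg Subtype.val hc⟩

lemma exists_y {F : Type*} [Field F] [IsAlgClosed F] (W : WeierstrassCurve F) (hΔ : W.Δ ≠ 0)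
    (x : F) : ∃ y : F, W.toAffine.Nonsingular x y := by
  obtain ⟨y, hy⟩ := IsAlgClosed.exists_root (yPoly W x) (by
    have h2 : (yPoly W x).coeff 2 = 1 := quad_coeff_two _ _
    intro h
    have h3 : (yPoly W x).coeff 2 = 0 := coeff_eq_zero_of_degree_lt (by rw [h]; norm_num)
    rw [h2] at h3
    exact one_ne_zero h3)
  refine ⟨y, ?_⟩
  rw [← equation_iff_nonsingular_of_Δ_ne_zero hΔ, equation_iff]
  simp [yPoly, quad, IsRoot] at hy
  linear_combination hy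

lemma zmod3 (c : ZMod 3) : c = 0 ∨ c = 1 ∨ c = -1 := by revert c; decide

lemma zmod5 (c : ZMod 5) : c = 0 ∨ c = 1 ∨ c = -1 ∨ c = 2 ∨ c = -2 := by revert c; decide

section QQ

/-- shorthand for the algebraic closure of `ℚ`. -/
local notation "KK" => AlgebraicClosure ℚ

/-- The `Algebra ℚ (AlgebraicClosure ℚ)` found by unification is `DivisionRing.toRatAlgebra`;
it is definitionally equal to the algebraic closure one. -/
theorem isGalois_QQbar : IsGalois ℚ KK := by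
  have h : @IsGalois ℚ _ KK _ (AlgebraicClosure.instAlgebra ℚ) :=
    @IsAlgClosure.isGalois ℚ KK _ _ (AlgebraicClosure.instAlgebra ℚ) _ _
  exact h

lemma fixed_rational {x : KK} (h : ∀ σ : KK ≃ₐ[ℚ] KK, σ x = x) : ∃ q : ℚ, algebraMap ℚ KK q = x :=
  haveI := isGalois_QQbar
  (InfiniteGalois.mem_range_algebraMap_iff_fixed x).mpr h

variable (E : WeierstrassCurve ℚ)

lemma smul_val {n : ℕ} (σ : KK ≃ₐ[ℚ] KK)
    (u : Submodule.torsionBy ℤ (E⁄KK).toAffine.Point (n : ℤ))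
    {x y : KK} {h : (E⁄KK).toAffine.Nonsingular x y} (hu : u.1 = Point.some x y h) :
    ∃ h', (σ • u).1 = Point.some (σ x) (σ y) h' := by
  refine ⟨((E.toAffine.baseChange_nonsingular (f := σ.toAlgHom) σ.injective ..).mpr h), ?_⟩
  change Point.map σ.toAlgHom u.1 = _
  rw [hu]
  rfl

lemma smul_x {n : ℕ} (σ : KK ≃ₐ[ℚ] KK)
    {u u' : Submodule.torsionBy ℤ (E⁄KK).toAffine.Point (n : ℤ)}
    {x y : KK} {h : (E⁄KK).toAffine.Nonsingular x y} (hu : u.1 = Point.some x y h)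
    {x' y' : KK} {h' : (E⁄KK).toAffine.Nonsingular x' y'} (hu' : u'.1 = Point.some x' y' h')
    (H : σ • u = u' ∨ σ • u = -u') : σ x = x' := by
  obtain ⟨h1, h2⟩ := smul_val E σ u hu
  apply (X_eq_iff (h₁ := h1) (h₂ := h')).mpr
  rw [← h2, ← hu']
  rcases H with H | H
  · left; rw [H]
  · right; rw [H]; rfl

lemma neg_val {n : ℕ} (u : Submodule.torsionBy ℤ (E⁄KK).toAffine.Point (n : ℤ)) :
    (-u).1 = -u.1 := rfl

lemma mem_iff {n : ℕ} (u : Submodule.torsionBy ℤ (E⁄KK).toAffine.Point (n : ℤ)) :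
    (n : ℤ) • u.1 = 0 := by
  have := u.2
  rwa [Submodule.mem_torsionBy_iff] at this

lemma exists_some {n : ℕ} {u : Submodule.torsionBy ℤ (E⁄KK).toAffine.Point (n : ℤ)} (hu : u ≠ 0) :
    ∃ x y : KK, ∃ h : (E⁄KK).toAffine.Nonsingular x y, u.1 = Point.some x y h := by
  obtain ⟨P, hP⟩ := u
  cases P with
  | zero => exact absurd (Subtype.ext rfl) hu
  | some x y h => exact ⟨x, y, h, rfl⟩

lemma Δ_ne {E : WeierstrassCurve ℚ} (hΔ : E.Δ ≠ 0) : (E⁄KK).Δ ≠ 0 := by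
  change (E.map (algebraMap ℚ KK)).Δ ≠ 0
  rw [WeierstrassCurve.map_Δ]
  exact fun h => hΔ ((map_eq_zero _).mp h)

lemma bb₂ : (E⁄KK).b₂ = algebraMap ℚ KK E.b₂ := WeierstrassCurve.map_b₂ E (algebraMap ℚ KK)
lemma bb₄ : (E⁄KK).b₄ = algebraMap ℚ KK E.b₄ := WeierstrassCurve.map_b₄ E (algebraMap ℚ KK)
lemma bb₆ : (E⁄KK).b₆ = algebraMap ℚ KK E.b₆ := WeierstrassCurve.map_b₆ E (algebraMap ℚ KK)
lemma bb₈ : (E⁄KK).b₈ = algebraMap ℚ KK E.b₈ := WeierstrassCurve.map_b₈ E (algebraMap ℚ KK)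

lemma P3_map (q : ℚ) : P3 (E⁄KK) (algebraMap ℚ KK q) = algebraMap ℚ KK (P3 E q) := by
  simp only [P3, bb₂, bb₄, bb₆, bb₈]
  simp only [_root_.map_add, map_mul, map_pow, map_ofNat]

/-- If the mod 3 representation is reducible then `ψ₃` has a rational root. -/
theorem three (hΔ : E.Δ ≠ 0)
    (h : ¬ GaloisRepIsIrreducible (K := KK) ℚ E 3) : ∃ q : ℚ, P3 E q = 0 := by
  classical
  have hΔK := Δ_ne hΔ
  have hf : (E⁄KK).Ψ₃ ≠ 0 := (E⁄KK).Ψ₃_ne_zero (by norm_num)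
  obtain ⟨hfin, hcard⟩ := card_le (E⁄KK) 3 (E⁄KK).Ψ₃ hf (fun x y h h3 => by
    rw [eval_Ψ₃]; exact P3_eq_zero_of_three h (by exact_mod_cast h3))
  rw [(E⁄KK).natDegree_Ψ₃ (by norm_num)] at hcard
  -- nontrivial
  have hnt : Nontrivial (Submodule.torsionBy ℤ (E⁄KK).toAffine.Point ((3 : ℕ) : ℤ)) := by
    obtain ⟨x, hx⟩ := IsAlgClosed.exists_root (E⁄KK).Ψ₃ (by
      apply degree_ne_of_natDegree_ne
      rw [(E⁄KK).natDegree_Ψ₃ (by norm_num)]
      norm_num)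
    obtain ⟨y, hy⟩ := exists_y (E⁄KK) hΔK x
    rw [IsRoot, eval_Ψ₃] at hx
    have h3 := three_of_P3_eq_zero hy hx
    refine ⟨⟨⟨Point.some x y hy, ?_⟩, 0, ?_⟩⟩
    · rw [Submodule.mem_torsionBy_iff]; exact_mod_cast h3
    · intro h0
      exact some_ne_zero hy (congrArg Subtype.val h0)
  have hN : ∃ N : Submodule (ZMod 3) (Submodule.torsionBy ℤ (E⁄KK).toAffine.Point ((3 : ℕ) : ℤ)),
      IsGaloisStable ℚ N ∧ N ≠ ⊥ ∧ N ≠ ⊤ := by
    by_contra hcon
    push Not at hcon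
    apply h
    refine ⟨hnt, fun N hN => ?_⟩
    by_cases hb : N = ⊥
    · exact Or.inl hb
    · exact Or.inr (hcon N hN hb)
  obtain ⟨N, hstab, hbot, htop⟩ := hN
  have : Fact (Nat.Prime 3) := ⟨Nat.prime_three⟩
  obtain ⟨v, hv, hv0, hgen⟩ := exists_generator (by omega) N hbot htop
  obtain ⟨x, y, hxy, hvx⟩ := exists_some E hv0
  have hfix : ∀ σ : KK ≃ₐ[ℚ] KK, σ x = x := by
    intro σ
    obtain ⟨c, hc⟩ := hgen _ (hstab σ v hv)
    apply smul_x E σ hvx hvx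
    rcases zmod3 c with rfl | rfl | rfl
    · exfalso
      rw [zero_smul] at hc
      have : σ⁻¹ • (σ • v) = 0 := by rw [← hc, smul_zero]
      rw [inv_smul_smul] at this
      exact hv0 this
    · left; rw [← hc, one_smul]
    · right; rw [← hc, neg_smul, one_smul]
  obtain ⟨q, hq⟩ := fixed_rational hfix
  refine ⟨q, ?_⟩
  have h3 : P3 (E⁄KK) x = 0 := by
    apply P3_eq_zero_of_three hxy
    rw [← hvx]
    exact_mod_cast mem_iff E v
  apply (algebraMap ℚ KK).injective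
  rw [_root_.map_zero, ← h3, ← hq, P3_map]

/-- If the mod 5 representation is reducible then there is a rational pair `(s, p)` of symmetric
functions of `x(P), x(2P)` for a point `P` of order 5. -/
theorem five (hΔ : E.Δ ≠ 0)
    (h : ¬ GaloisRepIsIrreducible (K := KK) ℚ E 5) :
    ∃ x x' : KK, ∃ s p : ℚ, x ≠ x' ∧ algebraMap ℚ KK s = x + x' ∧ algebraMap ℚ KK p = x * x' ∧
      x' * P2 (E⁄KK) x = Ph (E⁄KK) x ∧ x * P2 (E⁄KK) x' = Ph (E⁄KK) x' ∧
      P3 (E⁄KK) x ≠ 0 ∧ P3 (E⁄KK) x' ≠ 0 := by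
  classical
  have hΔK := Δ_ne hΔ
  have h5ne : ((5 : ℕ) : KK) ≠ 0 := by norm_num
  have hf : (E⁄KK).preΨ' 5 ≠ 0 := (E⁄KK).preΨ'_ne_zero h5ne
  obtain ⟨hfin, hcard⟩ := card_le (E⁄KK) 5 ((E⁄KK).preΨ' 5) hf (fun x y h h3 => by
    rw [eval_preΨ'_five]; exact P5_eq_zero_of_five h (by exact_mod_cast h3))
  have hdeg : ((E⁄KK).preΨ' 5).natDegree = 12 := by
    rw [(E⁄KK).natDegree_preΨ' h5ne]
    rw [if_neg (by decide)]
    norm_num
  rw [hdeg] at hcard
  -- nontrivial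
  have hnt : Nontrivial (Submodule.torsionBy ℤ (E⁄KK).toAffine.Point ((5 : ℕ) : ℤ)) := by
    obtain ⟨x, hx⟩ := IsAlgClosed.exists_root ((E⁄KK).preΨ' 5) (by
      apply degree_ne_of_natDegree_ne
      rw [hdeg]
      norm_num)
    obtain ⟨y, hy⟩ := exists_y (E⁄KK) hΔK x
    rw [IsRoot, eval_preΨ'_five] at hx
    have h3 := five_of_P5_eq_zero hy hx
    refine ⟨⟨⟨Point.some x y hy, ?_⟩, 0, ?_⟩⟩
    · rw [Submodule.mem_torsionBy_iff]; exact_mod_cast h3
    · intro h0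
      exact some_ne_zero hy (congrArg Subtype.val h0)
  have hN : ∃ N : Submodule (ZMod 5) (Submodule.torsionBy ℤ (E⁄KK).toAffine.Point ((5 : ℕ) : ℤ)),
      IsGaloisStable ℚ N ∧ N ≠ ⊥ ∧ N ≠ ⊤ := by
    by_contra hcon
    push Not at hcon
    apply h
    refine ⟨hnt, fun N hN => ?_⟩
    by_cases hb : N = ⊥
    · exact Or.inl hb
    · exact Or.inr (hcon N hN hb)
  obtain ⟨N, hstab, hbot, htop⟩ := hN
  have : Fact (Nat.Prime 5) := ⟨Nat.prime_five⟩
  obtain ⟨v, hv, hv0, hgen⟩ := exists_generator (by omega) N hbot htop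
  obtain ⟨x, y, hxy, hvx⟩ := exists_some E hv0
  have hv5 : (5 : ℤ) • Point.some x y hxy = 0 := by
    rw [← hvx]
    exact_mod_cast mem_iff E v
  obtain ⟨x', y', hxy', e2, hne, hP2, r1, r2⟩ := five_relations hxy hv5
  set w := v + v with hw
  have hwx : w.1 = Point.some x' y' hxy' := by
    rw [← e2, ← hvx, hw]
    change v.1 + v.1 = _
    abel
  have hw5 : (5 : ℤ) • Point.some x' y' hxy' = 0 := by
    rw [← hwx]
    exact_mod_cast mem_iff E w
  have hww : w + w = -v := by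
    have h5 : (5 : ℤ) • v = 0 := by
      apply Subtype.ext
      have := mem_iff E v
      exact_mod_cast this
    have e : w + w = (5 : ℤ) • v - v := by rw [hw]; abel
    rw [e, h5, zero_sub]
  have hfix : ∀ σ : KK ≃ₐ[ℚ] KK, (σ x = x ∧ σ x' = x') ∨ (σ x = x' ∧ σ x' = x) := by
    intro σ
    obtain ⟨c, hc⟩ := hgen _ (hstab σ v hv)
    have hσw : σ • w = σ • v + σ • v := by rw [hw, smul_add]
    rcases zmod5 c with rfl | rfl | rfl | rfl | rfl
    · exfalso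
      rw [zero_smul] at hc
      have : σ⁻¹ • (σ • v) = 0 := by rw [← hc, smul_zero]
      rw [inv_smul_smul] at this
      exact hv0 this
    · rw [one_smul] at hc
      left
      refine ⟨smul_x E σ hvx hvx (Or.inl hc.symm), smul_x E σ hwx hwx (Or.inl ?_)⟩
      rw [hσw, ← hc]
    · rw [neg_smul, one_smul] at hc
      left
      refine ⟨smul_x E σ hvx hvx (Or.inr hc.symm), smul_x E σ hwx hwx (Or.inr ?_)⟩
      rw [hσw, ← hc, hw]; abel
    · rw [two_smul] at hc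
      right
      refine ⟨smul_x E σ hvx hwx (Or.inl hc.symm), smul_x E σ hwx hvx (Or.inr ?_)⟩
      rw [hσw, ← hc, ← hw, hww]
    · rw [neg_smul, two_smul] at hc
      right
      refine ⟨smul_x E σ hvx hwx (Or.inr hc.symm), smul_x E σ hwx hvx (Or.inl ?_)⟩
      rw [hσw, ← hc, ← hw]
      have : -w + -w = -(w + w) := by abel
      rw [this, hww, neg_neg]
  obtain ⟨s, hs⟩ := fixed_rational (x := x + x') (by
    intro σ
    rw [_root_.map_add]
    rcases hfix σ with ⟨h1, h2⟩ | ⟨h1, h2⟩ <;> rw [h1, h2]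
    exact add_comm _ _)
  obtain ⟨p, hp⟩ := fixed_rational (x := x * x') (by
    intro σ
    rw [map_mul]
    rcases hfix σ with ⟨h1, h2⟩ | ⟨h1, h2⟩ <;> rw [h1, h2]
    exact mul_comm _ _)
  exact ⟨x, x', s, p, hne, hs, hp, r1, r2, P3_ne_zero_of_five hxy hv5,
    P3_ne_zero_of_five hxy' hw5⟩

end QQ

end Fermat.Agent.S51.Galois
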