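import Mathlib

set_option autoImplicit false

/-!
Infinite descent for the concordant forms `a² + d²`, `a² + 16 d²` (the elliptic curve `15a3`),
and the resulting classification of rational `u` with `(u² + 1)(u² + 16)` a square.
-/

namespace Fermat.Agent.S51.Concordant

lemma four_numbers {M N m n : ℤ} (hM : M ≠ 0) (h : M * N = m * n) :
    ∃ p q r s : ℤ, M = p * r ∧ m = p * q ∧ n = r * s ∧ N = q * s := by
  obtain ⟨p, r, ⟨q, hq⟩, ⟨s, hs⟩, hpr⟩ := exists_dvd_and_dvd_of_dvd_mul (Dvd.intro N h)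
  refine ⟨p, q, r, s, hpr, hq, hs, ?_⟩
  have : M * N = M * (q * s) := by
    rw [h, hq, hs, hpr]; ring
  exact mul_left_cancel₀ hM this

lemma sq_mod_eight {x : ℤ} (hx : x % 2 = 1) : x ^ 2 % 8 = 1 := by
  have h : x % 8 = 1 ∨ x % 8 = 3 ∨ x % 8 = 5 ∨ x % 8 = 7 := by omega
  rcases h with h | h | h | h <;> simp [pow_two, Int.mul_emod, h]

lemma odd_of_mul_odd {x y : ℤ} (h : (x * y) % 2 = 1) : x % 2 = 1 ∧ y % 2 = 1 := by
  rcases Int.emod_two_eq_zero_or_one x with hx | hx <;>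
    rcases Int.emod_two_eq_zero_or_one y with hy | hy <;>
    simp_all [Int.mul_emod]

lemma isCoprime_two_of_odd {x : ℤ} (hx : x % 2 = 1) : IsCoprime (2 : ℤ) x := by
  refine ⟨-(x / 2), 1, ?_⟩
  have := Int.emod_add_mul_ediv x 2
  rw [hx] at this
  linarith

lemma isCoprime_four_of_odd {x : ℤ} (hx : x % 2 = 1) : IsCoprime (4 : ℤ) x := by
  have h4 : (4 : ℤ) = 2 * 2 := by norm_num
  rw [h4]
  exact IsCoprime.mul_left (isCoprime_two_of_odd hx) (isCoprime_two_of_odd hx)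

lemma odd_of_diff {m n a : ℤ} (ha4 : a % 4 = 1) (h : a = m ^ 2 - n ^ 2)
    (hpar : m % 2 = 0 ∧ n % 2 = 1 ∨ m % 2 = 1 ∧ n % 2 = 0) : m % 2 = 1 ∧ n % 2 = 0 := by
  rcases hpar with ⟨e1, e2⟩ | h'
  · exfalso
    have h1 : m ^ 2 % 4 = 0 := by
      obtain ⟨t, ht⟩ : ∃ t, m = 2 * t := ⟨m / 2, by omega⟩
      rw [ht]; ring_nf; omega
    have h2 : n ^ 2 % 8 = 1 := sq_mod_eight e2
    omega
  · exact h'

lemma core_step {p q r s : ℤ} (hs0 : s ≠ 0) (hp : p % 2 = 1) (hr : r % 2 = 1) (hq : q % 2 = 1)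
    (hcps : IsCoprime p s) (hcqr : IsCoprime q r)
    (key : p ^ 2 * (q ^ 2 - r ^ 2) = s ^ 2 * (r ^ 2 - 16 * q ^ 2)) :
    p ^ 2 + s ^ 2 = q ^ 2 ∧ p ^ 2 + 16 * s ^ 2 = r ^ 2 := by
  obtain ⟨K, hK⟩ : s ^ 2 ∣ q ^ 2 - r ^ 2 :=
    (hcps.symm.pow (m := 2) (n := 2)).dvd_of_dvd_mul_left (Dvd.intro _ key.symm)
  have hK2 : p ^ 2 * K = r ^ 2 - 16 * q ^ 2 := by
    have : s ^ 2 * (p ^ 2 * K) = s ^ 2 * (r ^ 2 - 16 * q ^ 2) := by
      rw [← key, hK]; ring
    exact mul_left_cancel₀ (pow_ne_zero 2 hs0) this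
  have hK15 : K ∣ 15 := by
    obtain ⟨u, v, huv⟩ := (hcqr.pow (m := 2) (n := 2))
    refine ⟨-(u * (s ^ 2 + p ^ 2) + v * (16 * s ^ 2 + p ^ 2)), ?_⟩
    linear_combination (-15) * huv + (-u - 16 * v) * hK + (u + v) * hK2
  have hKbound : K.natAbs ≤ 15 := Nat.le_of_dvd (by norm_num) (Int.natAbs_dvd_natAbs.mpr hK15)
  have hp8 := sq_mod_eight hp
  have hr8 := sq_mod_eight hr
  have hq8 := sq_mod_eight hq
  have hK8 : K % 8 = 1 := by
    have h3 : (p ^ 2 * K) % 8 = K % 8 := by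
      rw [Int.mul_emod, hp8]; simp
    omega
  have hKneg : K < 0 := by
    by_contra hcon
    push Not at hcon
    have hp2 : 0 < p ^ 2 := by
      have : p ≠ 0 := by rintro rfl; simp at hp
      positivity
    have hq2 : 0 < q ^ 2 := by
      have : q ≠ 0 := by rintro rfl; simp at hq
      positivity
    have hs2 : 0 < s ^ 2 := by positivity
    nlinarith [mul_nonneg hcon hp2.le, mul_nonneg hcon hs2.le]
  have hKeq : K = -15 := by
    have : K = -15 ∨ K = -7 := by omega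
    rcases this with h | h
    · exact h
    · exfalso; rw [h] at hK15; norm_num at hK15
  rw [hKeq] at hK hK2
  constructor <;> linarith

lemma natAbs_lt_of_eq {p q r s d : ℤ} (hd : d = 2 * (p * q) * (r * s)) (hd0 : d ≠ 0) :
    s.natAbs < d.natAbs := by
  have hp : p ≠ 0 := by rintro rfl; apply hd0; rw [hd]; ring
  have hq : q ≠ 0 := by rintro rfl; apply hd0; rw [hd]; ring
  have hr : r ≠ 0 := by rintro rfl; apply hd0; rw [hd]; ring
  have hs : s ≠ 0 := by rintro rfl; apply hd0; rw [hd]; ring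
  have hp1 : 1 ≤ p.natAbs := by omega
  have hq1 : 1 ≤ q.natAbs := by omega
  have hr1 : 1 ≤ r.natAbs := by omega
  have hs1 : 1 ≤ s.natAbs := by omega
  have h1 : 1 ≤ p.natAbs * q.natAbs := Nat.mul_le_mul hp1 hq1
  have h2 : 1 ≤ (p.natAbs * q.natAbs) * r.natAbs := Nat.mul_le_mul h1 hr1
  have h3 : s.natAbs ≤ ((p.natAbs * q.natAbs) * r.natAbs) * s.natAbs :=
    Nat.le_mul_of_pos_left _ h2
  have h4 : d.natAbs = 2 * (((p.natAbs * q.natAbs) * r.natAbs) * s.natAbs) := by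
    rw [hd]; simp only [Int.natAbs_mul]; simp; ring
  rw [h4]; omega

theorem concordant_aux : ∀ (k : ℕ) (a d b c : ℤ), d.natAbs = k → a % 2 = 1 → Int.gcd a d = 1 →
    a ^ 2 + d ^ 2 = c ^ 2 → a ^ 2 + 16 * d ^ 2 = b ^ 2 → d = 0 := by
  intro k
  induction k using Nat.strong_induction_on with
  | _ k ih =>
    intro a d b c hk ha hcop h1 h2
    by_contra hd
    wlog ha4 : a % 4 = 1 generalizing a
    · exact this (-a) (by omega) (by simpa using hcop) (by simpa using h1) (by simpa using h2)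
        (by omega)
    have hd2 : 0 < d ^ 2 := by positivity
    have ha2 : 0 ≤ a ^ 2 := by positivity
    have hc : 0 < |c| := by
      rw [abs_pos]; rintro rfl; nlinarith
    have hb : 0 < |b| := by
      rw [abs_pos]; rintro rfl; nlinarith
    have hT1 : PythagoreanTriple a d |c| := by
      unfold PythagoreanTriple
      rw [abs_mul_abs_self]; linarith
    have hT2 : PythagoreanTriple a (4 * d) |b| := by
      unfold PythagoreanTriple
      rw [abs_mul_abs_self]; linarith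
    have hcop2 : Int.gcd a (4 * d) = 1 := by
      rw [← Int.isCoprime_iff_gcd_eq_one] at hcop ⊢
      exact IsCoprime.mul_right (isCoprime_four_of_odd ha).symm hcop
    obtain ⟨m, n, hm1, hm2, -, hmn, hpar, -⟩ :=
      hT1.coprime_classification' hcop ha hc
    obtain ⟨M, N, hM1, hM2, -, hMN, hPAR, -⟩ :=
      hT2.coprime_classification' hcop2 ha hb
    have hmodd := odd_of_diff ha4 hm1 hpar
    have hModd := odd_of_diff ha4 hM1 hPAR
    have hMN4 : M * N = 4 * (m * n) := by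
      have : 4 * (2 * m * n) = 2 * M * N := by rw [← hm2, hM2]
      linarith
    obtain ⟨N', hN'⟩ : (4 : ℤ) ∣ N :=
      (isCoprime_four_of_odd hModd.1).dvd_of_dvd_mul_left (Dvd.intro _ hMN4.symm)
    have hMN' : M * N' = m * n := by
      rw [hN'] at hMN4; linarith
    have hM0 : M ≠ 0 := by rintro rfl; simp at hModd
    obtain ⟨p, q, r, s, e1, e2, e3, e4⟩ := four_numbers hM0 hMN'
    have hn0 : n ≠ 0 := by
      rintro rfl
      apply hd; rw [hm2]; ring
    have hs0 : s ≠ 0 := by rintro rfl; apply hn0; rw [e3]; ring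
    have hpr : p % 2 = 1 ∧ r % 2 = 1 := odd_of_mul_odd (by rw [← e1]; exact hModd.1)
    have hpq : p % 2 = 1 ∧ q % 2 = 1 := odd_of_mul_odd (by rw [← e2]; exact hmodd.1)
    rw [← Int.isCoprime_iff_gcd_eq_one] at hmn
    rw [e2, e3] at hmn
    have hcps : IsCoprime p s := (hmn.of_mul_left_left).of_mul_right_right
    have hcqr : IsCoprime q r := (hmn.of_mul_left_right).of_mul_right_left
    have key : p ^ 2 * (q ^ 2 - r ^ 2) = s ^ 2 * (r ^ 2 - 16 * q ^ 2) := by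
      have : m ^ 2 - n ^ 2 = M ^ 2 - N ^ 2 := by rw [← hm1, ← hM1]
      rw [e2, e3, e1, hN', e4] at this
      linarith
    obtain ⟨k1, k2⟩ := core_step hs0 hpr.1 hpr.2 hpq.2 hcps hcqr key
    have hsd : s.natAbs < k := by
      rw [← hk]
      exact natAbs_lt_of_eq (p := p) (q := q) (r := r) (by rw [hm2, e2, e3]) hd
    exact hs0 (ih s.natAbs hsd p s r q rfl hpr.1 (Int.isCoprime_iff_gcd_eq_one.mp hcps) k1 k2)

/-- No nontrivial solutions to `a² + d² = □`, `a² + 16 d² = □` with `a` odd, coprime. -/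
theorem concordant_odd {a d b c : ℤ} (ha : a % 2 = 1) (hcop : Int.gcd a d = 1)
    (h1 : a ^ 2 + d ^ 2 = c ^ 2) (h2 : a ^ 2 + 16 * d ^ 2 = b ^ 2) : d = 0 :=
  concordant_aux _ a d b c rfl ha hcop h1 h2

/-- coprime version: `a² + d² = □`, `a² + 16 d² = □` implies `a d = 0`. -/
theorem concordant_coprime {a d b c : ℤ} (hcop : Int.gcd a d = 1)
    (h1 : a ^ 2 + d ^ 2 = c ^ 2) (h2 : a ^ 2 + 16 * d ^ 2 = b ^ 2) : a = 0 ∨ d = 0 := by
  rcases Int.emod_two_eq_zero_or_one a with ha | ha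
  · left
    have hdodd : d % 2 = 1 := by
      rcases Int.emod_two_eq_zero_or_one d with hd | hd
      · exfalso
        have : (2 : ℤ) ∣ Int.gcd a d := Int.dvd_coe_gcd (Int.dvd_of_emod_eq_zero ha)
          (Int.dvd_of_emod_eq_zero hd)
        rw [hcop] at this
        norm_num at this
      · exact hd
    obtain ⟨a1, ha1⟩ : ∃ t, a = 2 * t := ⟨a / 2, by omega⟩
    have hb : b % 2 = 0 := by
      rcases Int.emod_two_eq_zero_or_one b with hb | hb
      · exact hb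
      · exfalso
        have := sq_mod_eight hb
        rw [← h2, ha1] at this
        have h : (2 * a1) ^ 2 + 16 * d ^ 2 = 2 * (2 * a1 ^ 2 + 8 * d ^ 2) := by ring
        omega
    obtain ⟨b1, hb1⟩ : ∃ t, b = 2 * t := ⟨b / 2, by omega⟩
    have h3 : a1 ^ 2 + 4 * d ^ 2 = b1 ^ 2 := by
      rw [ha1, hb1] at h2; linarith
    have hc : c % 2 = 1 := by
      rcases Int.emod_two_eq_zero_or_one c with hc | hc
      · exfalso
        obtain ⟨c1, hc1⟩ : ∃ t, c = 2 * t := ⟨c / 2, by omega⟩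
        have := sq_mod_eight hdodd
        rw [ha1, hc1] at h1
        have : d ^ 2 = 4 * (c1 ^ 2 - a1 ^ 2) := by linarith
        omega
      · exact hc
    have ha1e : a1 % 2 = 0 := by
      rcases Int.emod_two_eq_zero_or_one a1 with h | h
      · exact h
      · exfalso
        have e1 := sq_mod_eight h
        have e2 := sq_mod_eight hdodd
        have e3 := sq_mod_eight hc
        rw [ha1] at h1
        have : 4 * a1 ^ 2 + d ^ 2 = c ^ 2 := by linarith
        omega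
    obtain ⟨A, hA⟩ : ∃ t, a1 = 2 * t := ⟨a1 / 2, by omega⟩
    have hb1e : b1 % 2 = 0 := by
      rcases Int.emod_two_eq_zero_or_one b1 with h | h
      · exact h
      · exfalso
        have e1 := sq_mod_eight h
        rw [hA] at h3
        have : b1 ^ 2 = 4 * (A ^ 2 + d ^ 2) := by linarith
        omega
    obtain ⟨B, hB⟩ : ∃ t, b1 = 2 * t := ⟨b1 / 2, by omega⟩
    have h4 : d ^ 2 + A ^ 2 = B ^ 2 := by
      rw [hA, hB] at h3; linarith
    have h5 : d ^ 2 + 16 * A ^ 2 = c ^ 2 := by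
      rw [ha1, hA] at h1; linarith
    have hcop' : Int.gcd d A = 1 := by
      rw [← Int.isCoprime_iff_gcd_eq_one] at hcop ⊢
      rw [ha1, hA] at hcop
      exact (hcop.of_mul_left_right.of_mul_left_right).symm
    have := concordant_odd hdodd hcop' h4 h5
    rw [ha1, hA, this]; ring
  · right
    exact concordant_odd ha hcop h1 h2

/-- Rational version. -/
theorem concordant_rat_aux {u v w : ℚ} (h1 : u ^ 2 + 1 = v ^ 2) (h2 : u ^ 2 + 16 = w ^ 2) :
    u = 0 := by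
  have hD : (u.den : ℚ) ≠ 0 := by exact_mod_cast u.den_nz
  have hu : u = (u.num : ℚ) / u.den := (Rat.num_div_den u).symm
  have e1 : IsSquare ((u.num ^ 2 + (u.den : ℤ) ^ 2 : ℤ) : ℚ) := by
    refine ⟨v * u.den, ?_⟩
    push_cast
    have : (u.num : ℚ) = u * u.den := by rw [Rat.mul_den_eq_num]
    rw [this]
    linear_combination (u.den : ℚ) ^ 2 * h1
  have e2 : IsSquare ((u.num ^ 2 + 16 * (u.den : ℤ) ^ 2 : ℤ) : ℚ) := by
    refine ⟨w * u.den, ?_⟩
    push_cast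
    have : (u.num : ℚ) = u * u.den := by rw [Rat.mul_den_eq_num]
    rw [this]
    linear_combination (u.den : ℚ) ^ 2 * h2
  rw [Rat.isSquare_intCast_iff] at e1 e2
  obtain ⟨c, hc⟩ := e1
  obtain ⟨b, hb⟩ := e2
  have hcop : Int.gcd u.num u.den = 1 := by
    have := u.reduced
    rwa [Nat.Coprime] at this
  rcases concordant_coprime (a := u.num) (d := u.den) (c := c) (b := b) hcop
    (by rw [hc]; ring) (by rw [hb]; ring) with h | h
  · exact Rat.num_eq_zero.mp h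
  · exfalso; apply u.den_nz; exact_mod_cast h

theorem concordant_rat {x y z t : ℚ} (h1 : x ^ 2 + y ^ 2 = z ^ 2) (h2 : x ^ 2 + 16 * y ^ 2 = t ^ 2) :
    x = 0 ∨ y = 0 := by
  by_cases hy : y = 0
  · exact Or.inr hy
  · left
    have : x / y = 0 := by
      apply concordant_rat_aux (v := z / y) (w := t / y)
      · field_simp; exact h1
      · field_simp; linarith
    rcases div_eq_zero_iff.mp this with h | h
    · exact h
    · exact absurd h hy

lemma three_dvd_of_sq_add_sq {n D : ℤ} (h : (3 : ℤ) ∣ n ^ 2 + D ^ 2) : (3 : ℤ) ∣ n ∧ (3 : ℤ) ∣ D := by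
  have h' : (n ^ 2 + D ^ 2) % 3 = 0 := Int.emod_eq_zero_of_dvd h
  have hn : n % 3 = 0 ∨ n % 3 = 1 ∨ n % 3 = 2 := by omega
  have hD : D % 3 = 0 ∨ D % 3 = 1 ∨ D % 3 = 2 := by omega
  rcases hn with hn | hn | hn <;> rcases hD with hD | hD | hD <;>
    simp [pow_two, Int.add_emod, Int.mul_emod, hn, hD] at h' ⊢
  exact ⟨Int.dvd_of_emod_eq_zero hn, Int.dvd_of_emod_eq_zero hD⟩

lemma gcd_dvd_fifteen {n D g : ℤ} (hcop : IsCoprime n D) (h1 : g ∣ n ^ 2 + D ^ 2)
    (h2 : g ∣ n ^ 2 + 16 * D ^ 2) : g ∣ 15 := by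
  obtain ⟨a, ha⟩ := h1
  obtain ⟨b, hb⟩ := h2
  obtain ⟨u, v, huv⟩ := (hcop.pow (m := 2) (n := 2))
  refine ⟨u * (16 * a - b) + v * (b - a), ?_⟩
  linear_combination (-15) * huv + (16 * u - v) * ha + (v - u) * hb

/-- If `(u² + 1)(u² + 16)` is a rational square then `u = 0` or `u² = 4`. -/
theorem quartic {u t : ℚ} (h : (u ^ 2 + 1) * (u ^ 2 + 16) = t ^ 2) : u = 0 ∨ u ^ 2 = 4 := by
  have hD : (u.den : ℚ) ≠ 0 := by exact_mod_cast u.den_nz
  have hDz : (u.den : ℤ) ≠ 0 := by exact_mod_cast u.den_nz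
  have hnum : (u.num : ℚ) = u * u.den := by rw [Rat.mul_den_eq_num]
  have e1 : IsSquare (((u.num ^ 2 + (u.den : ℤ) ^ 2) * (u.num ^ 2 + 16 * (u.den : ℤ) ^ 2) : ℤ) : ℚ) := by
    refine ⟨t * u.den ^ 2, ?_⟩
    push_cast
    rw [hnum]
    linear_combination (u.den : ℚ) ^ 4 * h
  rw [Rat.isSquare_intCast_iff] at e1
  obtain ⟨c, hc⟩ := e1
  have hcop : IsCoprime u.num (u.den : ℤ) := by
    rw [Int.isCoprime_iff_gcd_eq_one]
    have := u.reduced
    rwa [Nat.Coprime] at this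
  set n := u.num with hn
  set D := (u.den : ℤ) with hDdef
  have hA : 0 < n ^ 2 + D ^ 2 := by positivity
  have hB : 0 < n ^ 2 + 16 * D ^ 2 := by positivity
  obtain ⟨g, A, B, hgpos, hAB, hA', hB'⟩ :
      ∃ g A B : ℤ, 0 < g ∧ Int.gcd A B = 1 ∧ n ^ 2 + D ^ 2 = g * A ∧ n ^ 2 + 16 * D ^ 2 = g * B := by
    obtain ⟨g, A, B, hgpos, hAB, hA', hB'⟩ := Int.exists_gcd_one' (m := n ^ 2 + D ^ 2)
      (n := n ^ 2 + 16 * D ^ 2) (Int.gcd_pos_of_ne_zero_left _ hA.ne')
    exact ⟨g, A, B, by exact_mod_cast hgpos, hAB, by rw [hA']; ring, by rw [hB']; ring⟩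
  have hg15 : g ∣ 15 := gcd_dvd_fifteen hcop ⟨A, hA'⟩ ⟨B, hB'⟩
  have hApos : 0 < A := by
    by_contra hcon; push Not at hcon
    nlinarith [mul_nonneg hgpos.le (neg_nonneg.mpr hcon)]
  have hBpos : 0 < B := by
    by_contra hcon; push Not at hcon
    nlinarith [mul_nonneg hgpos.le (neg_nonneg.mpr hcon)]
  have hgc : g ^ 2 ∣ c ^ 2 := ⟨A * B, by rw [pow_two, ← hc, hA', hB']; ring⟩
  obtain ⟨c', hc'⟩ := (Int.pow_dvd_pow_iff two_ne_zero).mp hgc
  have hABsq : A * B = c' ^ 2 := by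
    have : g ^ 2 * (A * B) = g ^ 2 * c' ^ 2 := by
      have : (g * A) * (g * B) = c * c := by rw [← hA', ← hB']; exact hc
      rw [hc'] at this
      linarith
    exact mul_left_cancel₀ (pow_ne_zero 2 hgpos.ne') this
  obtain ⟨α, hα⟩ : ∃ α, A = α ^ 2 := by
    obtain ⟨a0, ha0 | ha0⟩ := Int.sq_of_gcd_eq_one hAB hABsq
    · exact ⟨a0, ha0⟩
    · exfalso; nlinarith [sq_nonneg a0]
  obtain ⟨β, hβ⟩ : ∃ β, B = β ^ 2 := by
    obtain ⟨a0, ha0 | ha0⟩ := Int.sq_of_gcd_eq_one (a := B) (b := A) (c := c')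
      (by rw [Int.gcd_comm]; exact hAB) (by rw [mul_comm]; exact hABsq)
    · exact ⟨a0, ha0⟩
    · exfalso; nlinarith [sq_nonneg a0]
  have h3g : ¬ (3 : ℤ) ∣ g := by
    intro h3
    have h3' : (3 : ℤ) ∣ n ^ 2 + D ^ 2 := hA' ▸ (h3.mul_right A)
    obtain ⟨k1, k2⟩ := three_dvd_of_sq_add_sq h3'
    have := hcop.isUnit_of_dvd' k1 k2
    rw [Int.isUnit_iff] at this
    omega
  have hg : g = 1 ∨ g = 5 := by
    have : g ≤ 15 := Int.le_of_dvd (by norm_num) hg15
    clear hgc hA' hB' hc'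
    interval_cases g <;> omega
  rcases hg with hg | hg
  · left
    rw [hg, one_mul] at hA' hB'
    rcases concordant_coprime (Int.isCoprime_iff_gcd_eq_one.mp hcop) (hA'.trans hα) (hB'.trans hβ)
      with h0 | h0
    · rw [hn] at h0; exact Rat.num_eq_zero.mp h0
    · exact absurd h0 hDz
  · have hu1 : u ^ 2 + 1 = 5 * ((α : ℚ) / (u.den : ℚ)) ^ 2 := by
      have : ((n ^ 2 + D ^ 2 : ℤ) : ℚ) = ((g * A : ℤ) : ℚ) := by rw [hA']
      rw [hg, hα, hn, hDdef] at this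
      push_cast at this
      rw [hnum] at this
      field_simp
      linear_combination this
    have hu2 : u ^ 2 + 16 = 5 * ((β : ℚ) / (u.den : ℚ)) ^ 2 := by
      have : ((n ^ 2 + 16 * D ^ 2 : ℤ) : ℚ) = ((g * B : ℤ) : ℚ) := by rw [hB']
      rw [hg, hβ, hn, hDdef] at this
      push_cast at this
      rw [hnum] at this
      field_simp
      linear_combination this
    right
    generalize (α : ℚ) / (u.den : ℚ) = w at hu1
    generalize (β : ℚ) / (u.den : ℚ) = s at hu2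
    have k1 : (10 * (u - w * s)) ^ 2 + (u ^ 2 - 4) ^ 2 = (5 * (u * s - 4 * w)) ^ 2 := by
      linear_combination (-20 * s ^ 2 + 80) * hu1 + (5 * u ^ 2 - 4 * (u ^ 2 + 1)) * hu2
    have k2 : (10 * (u - w * s)) ^ 2 + 16 * (u ^ 2 - 4) ^ 2 = (10 * (u * w - s)) ^ 2 := by
      linear_combination (-20 * s ^ 2 + 20 * u ^ 2) * hu1 + (20 - 4 * (u ^ 2 + 1)) * hu2
    rcases concordant_rat k1 k2 with h0 | h0
    · have h1 : u = w * s := by linarith
      have h2 : (u ^ 2 - 4) ^ 2 = 0 := by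
        have : 25 * u ^ 2 = (u ^ 2 + 1) * (u ^ 2 + 16) := by
          rw [hu1, hu2]; rw [h1]; ring
        linear_combination -this
      have h3 : u ^ 2 - 4 = 0 := by simpa using h2
      linarith
    · linarith

end Fermat.Agent.S51.Concordant
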