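import Mathlib
import Fermat.Agent.S51_lib.Concordant

set_option autoImplicit false

/-!
Explicit algebra on `X₀(15)`: a curve with `b₈ = 0` (3-torsion abscissa at `0`) and a rational
5-isogeny with symmetric functions `s = x₁ + x₂`, `p = x₁ x₂`.
-/

namespace Fermat.Agent.S51.X015

open Fermat.Agent.S51.Concordant

/-- Rational points of `y² = z (z - 4) (25 - 4 z)`. -/
theorem curve_points {z y : ℚ} (h : y ^ 2 = z * (z - 4) * (25 - 4 * z)) :
    z = 0 ∨ z = 4 ∨ z = 25 / 4 ∨ z = 5 ∨ z = -5 := by
  by_cases h25 : 25 - 4 * z = 0
  · right; right; left; linarith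
  have hq : ((2 * y / (25 - 4 * z)) ^ 2 + 1) * ((2 * y / (25 - 4 * z)) ^ 2 + 16)
      = (2 * (2 * z - 5) * (z - 10) / (25 - 4 * z)) ^ 2 := by
    have e1 : (2 * y / (25 - 4 * z)) ^ 2 + 1 = (2 * z - 5) ^ 2 / (25 - 4 * z) := by
      field_simp
      linear_combination 4 * h
    have e2 : (2 * y / (25 - 4 * z)) ^ 2 + 16 = 4 * (z - 10) ^ 2 / (25 - 4 * z) := by
      field_simp
      linear_combination 4 * h
    rw [e1, e2]; field_simp; ring
  rcases quartic hq with h0 | h0
  · have hy : y = 0 := by
      rcases div_eq_zero_iff.mp h0 with h1 | h1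
      · linarith
      · exact absurd h1 h25
    rw [hy] at h
    have h1 : z * (z - 4) * (25 - 4 * z) = 0 := by rw [← h]; ring
    rcases mul_eq_zero.mp h1 with h2 | h2
    · rcases mul_eq_zero.mp h2 with h3 | h3
      · exact Or.inl h3
      · right; left; linarith
    · exact absurd h2 h25
  · have h1 : (2 * y) ^ 2 = 4 * (25 - 4 * z) ^ 2 := by
      rw [div_pow, div_eq_iff (pow_ne_zero 2 h25)] at h0
      exact h0
    have h2 : (25 - 4 * z) * ((z - 5) * (z + 5)) = 0 := by
      linear_combination (1 / 4 : ℚ) * h1 - h
    rcases mul_eq_zero.mp h2 with h3 | h3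
    · exact absurd h3 h25
    · rcases mul_eq_zero.mp h3 with h4 | h4
      · right; right; right; left; linarith
      · right; right; right; right; linarith

/-- The four non-cuspidal rational points of `X₀(15)`. -/
theorem x015 {b2 b4 b6 s p c4 Δ : ℚ} (h0 : b2 * b6 = b4 ^ 2)
    (R1 : s ^ 3 - 6 * p * s - b4 * s - b2 * p - b6 = 0)
    (R3 : p * s ^ 2 - 5 * p ^ 2 + b4 * p + b6 * s = 0) (hp : p ≠ 0)
    (hc4 : c4 = b2 ^ 2 - 24 * b4) (hΔ : Δ = -8 * b4 ^ 3 - 27 * b6 ^ 2 + 9 * b2 * b4 * b6)
    (hs : s ^ 2 - 4 * p ≠ 0) (hΔ0 : Δ ≠ 0) :
    2 * c4 ^ 3 = -25 * Δ ∨ 8 * c4 ^ 3 = -349938025 * Δ ∨ 32 * c4 ^ 3 = -121945 * Δ ∨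
      32768 * c4 ^ 3 = 46969655 * Δ := by
  by_cases hs0 : s = 0
  · -- s = 0
    right; right; left
    subst hs0
    have e1 : b4 = 5 * p := by
      have : p * (b4 - 5 * p) = 0 := by linear_combination R3
      rcases mul_eq_zero.mp this with h | h
      · exact absurd h hp
      · linarith
    have e2 : b6 = -b2 * p := by linear_combination -R1
    have e3 : b2 ^ 2 = -25 * p := by
      have : p * (b2 ^ 2 + 25 * p) = 0 := by
        rw [e1, e2] at h0
        linear_combination -h0
      rcases mul_eq_zero.mp this with h | h
      · exact absurd h hp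
      · linarith
    have e4 : c4 = -145 * p := by rw [hc4, e1, e3]; ring
    have e5 : Δ = 800 * p ^ 3 := by
      rw [hΔ, e1, e2]; linear_combination (-72 * p ^ 2) * e3
    rw [e4, e5]; ring
  · -- the elliptic curve
    have key : (2 * (b4 / p) + s ^ 2 / p - 10) ^ 2
        = (s ^ 2 / p) * (s ^ 2 / p - 4) * (25 - 4 * (s ^ 2 / p)) := by
      have hb6 : b6 = -(p * (s ^ 2 - 5 * p + b4)) / s := by
        field_simp; linear_combination R3
      have hb2 : b2 = (s ^ 4 - 5 * p * s ^ 2 - 5 * p ^ 2 - b4 * (s ^ 2 - p)) / (p * s) := by
        field_simp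
        have : s * b6 = -(p * (s ^ 2 - 5 * p + b4)) := by linear_combination R3
        linear_combination -s * R1 - this
      rw [hb6, hb2] at h0
      field_simp at h0 ⊢
      linear_combination (-4) * h0
    have hz : s ^ 2 / p ≠ 0 := div_ne_zero (pow_ne_zero 2 hs0) hp
    have hps : ∀ z : ℚ, s ^ 2 / p = z → s ^ 2 = z * p := by
      intro z hz; rw [← hz]; field_simp
    rcases curve_points key with h | h | h | h | h
    · exact absurd h hz
    · exfalso; apply hs; rw [hps _ h]; ring
    · -- z = 25/4
      right; right; right
      rw [h] at key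
      have hw : b4 / p = 15 / 8 := by
        have : (b4 / p - 15 / 8) ^ 2 = 0 := by linear_combination (1 / 4 : ℚ) * key
        have := pow_eq_zero_iff (two_ne_zero) |>.mp this
        linarith
      have hp' : p = 4 / 25 * s ^ 2 := by rw [hps _ h]; ring
      have hb4 : b4 = 3 / 10 * s ^ 2 := by
        have : b4 = 15 / 8 * p := by rw [← hw]; field_simp
        rw [this, hp']; ring
      have hb6 : b6 = -2 / 25 * s ^ 3 := by
        rw [hb4, hp'] at R3
        have : s * (b6 - (-2 / 25 * s ^ 3)) = 0 := by linear_combination R3
        rcases mul_eq_zero.mp this with h | h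
        · exact absurd h hs0
        · linarith
      have hb2 : b2 = -9 / 8 * s := by
        rw [hb4, hp', hb6] at R1
        have : s ^ 2 * (b2 - (-9 / 8 * s)) = 0 := by linear_combination (-25 / 4 : ℚ) * R1
        rcases mul_eq_zero.mp this with h | h
        · exact absurd h (pow_ne_zero 2 hs0)
        · linarith
      rw [hc4, hΔ, hb2, hb4, hb6]; ring
    · -- z = 5
      rw [h] at key
      have hw : b4 / p = 0 ∨ b4 / p = 5 := by
        have : (b4 / p) * (b4 / p - 5) = 0 := by linear_combination (1 / 4 : ℚ) * key
        rcases mul_eq_zero.mp this with h | h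
        · exact Or.inl h
        · right; linarith
      have hp' : p = 1 / 5 * s ^ 2 := by rw [hps _ h]; ring
      rcases hw with hw | hw
      · exfalso; apply hΔ0
        have hb4 : b4 = 0 := by
          rcases div_eq_zero_iff.mp hw with h | h
          · exact h
          · exact absurd h hp
        have hb6 : b6 = 0 := by
          rw [hb4, hp'] at R3
          have : s * b6 = 0 := by linear_combination R3
          rcases mul_eq_zero.mp this with h | h
          · exact absurd h hs0
          · exact h
        rw [hΔ, hb4, hb6]; ring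
      · left
        have hb4 : b4 = s ^ 2 := by
          have : b4 = 5 * p := by rw [← hw]; field_simp
          rw [this, hp']; ring
        have hb6 : b6 = -1 / 5 * s ^ 3 := by
          rw [hb4, hp'] at R3
          have : s * (b6 - (-1 / 5 * s ^ 3)) = 0 := by linear_combination R3
          rcases mul_eq_zero.mp this with h | h
          · exact absurd h hs0
          · linarith
        have hb2 : b2 = -5 * s := by
          rw [hb4, hp', hb6] at R1
          have : s ^ 2 * (b2 - (-5 * s)) = 0 := by linear_combination (-5 : ℚ) * R1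
          rcases mul_eq_zero.mp this with h | h
          · exact absurd h (pow_ne_zero 2 hs0)
          · linarith
        rw [hc4, hΔ, hb2, hb4, hb6]; ring
    · -- z = -5
      rw [h] at key
      have hw : b4 / p = 30 ∨ b4 / p = -15 := by
        have : (b4 / p - 30) * (b4 / p + 15) = 0 := by linear_combination (1 / 4 : ℚ) * key
        rcases mul_eq_zero.mp this with h | h
        · left; linarith
        · right; linarith
      have hp' : p = -1 / 5 * s ^ 2 := by rw [hps _ h]; ring
      rcases hw with hw | hw
      · right; left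
        have hb4 : b4 = -6 * s ^ 2 := by
          have : b4 = 30 * p := by rw [← hw]; field_simp
          rw [this, hp']; ring
        have hb6 : b6 = -4 / 5 * s ^ 3 := by
          rw [hb4, hp'] at R3
          have : s * (b6 - (-4 / 5 * s ^ 3)) = 0 := by linear_combination R3
          rcases mul_eq_zero.mp this with h | h
          · exact absurd h hs0
          · linarith
        have hb2 : b2 = -45 * s := by
          rw [hb4, hp', hb6] at R1
          have : s ^ 2 * (b2 - (-45 * s)) = 0 := by linear_combination (5 : ℚ) * R1
          rcases mul_eq_zero.mp this with h | h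
          · exact absurd h (pow_ne_zero 2 hs0)
          · linarith
        rw [hc4, hΔ, hb2, hb4, hb6]; ring
      · exfalso; apply hΔ0
        have hb4 : b4 = 3 * s ^ 2 := by
          have : b4 = -15 * p := by rw [← hw]; field_simp
          rw [this, hp']; ring
        have hb6 : b6 = s ^ 3 := by
          rw [hb4, hp'] at R3
          have : s * (b6 - s ^ 3) = 0 := by linear_combination R3
          rcases mul_eq_zero.mp this with h | h
          · exact absurd h hs0
          · linarith
        have hb2 : b2 = 9 * s := by
          rw [hb4, hp', hb6] at R1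
          have : s ^ 2 * (b2 - 9 * s) = 0 := by linear_combination (5 : ℚ) * R1
          rcases mul_eq_zero.mp this with h | h
          · exact absurd h (pow_ne_zero 2 hs0)
          · linarith
        rw [hΔ, hb2, hb4, hb6]; ring

end Fermat.Agent.S51.X015
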